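import Fermat.Agent.H92.MW.LPFInterfaces

/-!
# P-MW, row 863 (MW-C-NEWTON): Newton interpolation and the valuation of the maximal minors
(helper90)

`newtonMinor : Fermat.Agent.H92.MW.NewtonMinorStatement`.

For a fixed column, the interpolation polynomials `P a` of the clusters satisfy Newton's formula
`P a = ∑_{b ≤ a, c b = c a} E' b j • N b`, `N b = ∏_{b' < b, c b' = c b} (X - z b')`, hence
`diag(lam) * E = L * E'` with `L` lower triangular, `L a a = ∏_{b < a, c b = c a} (z a - z b)`.
-/

set_option autoImplicit false
set_option linter.unusedSectionVars false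
set_option linter.style.haveILetI false

noncomputable section

open Polynomial

namespace Fermat.Agent.H90.MW

open Fermat.Agent.H92.MW
open scoped Classical

section newton

variable {𝒦 : Type} [Field 𝒦] {Γ : Type} {d : ℕ} (c : Fin d → Γ) (z : Fin d → 𝒦)

/-- the earlier indices with the same label -/
def prevSet (a : Fin d) : Finset (Fin d) :=
  Finset.univ.filter fun b : Fin d => b < a ∧ c b = c a

lemma mem_prevSet {a b : Fin d} : b ∈ prevSet c a ↔ b < a ∧ c b = c a := by
  simp [prevSet]

lemma clusterRank_eq_card (a : Fin d) : clusterRank c a = (prevSet c a).card := by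
  unfold clusterRank prevSet
  congr

lemma self_notMem_prevSet (a : Fin d) : a ∉ prevSet c a := by
  rw [mem_prevSet]
  exact fun h => lt_irrefl _ h.1

lemma mem_insert_prevSet {a b : Fin d} :
    b ∈ insert a (prevSet c a) ↔ b ≤ a ∧ c b = c a := by
  rw [Finset.mem_insert, mem_prevSet]
  constructor
  · rintro (rfl | ⟨h1, h2⟩)
    · exact ⟨le_rfl, rfl⟩
    · exact ⟨h1.le, h2⟩
  · rintro ⟨h1, h2⟩
    rcases h1.eq_or_lt with h | h
    · exact Or.inl h
    · exact Or.inr ⟨h, h2⟩

lemma insert_prevSet_subset {a b : Fin d} (hb : b ∈ prevSet c a) :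
    insert b (prevSet c b) ⊆ prevSet c a := by
  rw [mem_prevSet] at hb
  intro x hx
  rw [mem_insert_prevSet] at hx
  rw [mem_prevSet]
  exact ⟨lt_of_le_of_lt hx.1 hb.1, hx.2.trans hb.2⟩

lemma card_prevSet_lt {a b : Fin d} (hb : b ∈ prevSet c a) :
    (prevSet c b).card < (prevSet c a).card := by
  apply Finset.card_lt_card
  rw [Finset.ssubset_iff_of_subset
    (fun x hx => insert_prevSet_subset c hb (Finset.mem_insert_of_mem hx))]
  exact ⟨b, hb, self_notMem_prevSet c b⟩

/-- the Newton polynomial `∏_{b' < a, c b' = c a} (X - z b')` -/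
def newtonPoly (a : Fin d) : 𝒦[X] := ∏ b ∈ prevSet c a, (X - C (z b))

lemma newtonPoly_monic (a : Fin d) : (newtonPoly c z a).Monic :=
  monic_prod_of_monic _ _ fun b _ => monic_X_sub_C (z b)

lemma newtonPoly_natDegree (a : Fin d) :
    (newtonPoly c z a).natDegree = (prevSet c a).card := by
  unfold newtonPoly
  rw [natDegree_prod_of_monic _ _ fun b _ => monic_X_sub_C (z b)]
  simp

lemma newtonPoly_eval (a : Fin d) (x : 𝒦) :
    (newtonPoly c z a).eval x = ∏ b ∈ prevSet c a, (x - z b) := by
  unfold newtonPoly
  rw [eval_prod]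
  simp

lemma newtonPoly_eval_eq_zero {a b : Fin d} (hb : b ∈ prevSet c a) :
    (newtonPoly c z a).eval (z b) = 0 := by
  rw [newtonPoly_eval]
  exact Finset.prod_eq_zero hb (sub_self _)

lemma newtonPoly_coeff_card (a : Fin d) :
    (newtonPoly c z a).coeff (prevSet c a).card = 1 := by
  have := (newtonPoly_monic c z a).coeff_natDegree
  rwa [newtonPoly_natDegree] at this

lemma newtonPoly_coeff_eq_zero (a : Fin d) {m : ℕ} (hm : (prevSet c a).card < m) :
    (newtonPoly c z a).coeff m = 0 :=
  coeff_eq_zero_of_natDegree_lt (by rwa [newtonPoly_natDegree])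

/-- **Newton's formula.** -/
theorem newton_expansion (hz : ∀ a b, a ≠ b → c a = c b → z a ≠ z b)
    (P : Fin d → 𝒦[X]) (e y : Fin d → 𝒦)
    (hdeg : ∀ a, (P a).natDegree ≤ (prevSet c a).card)
    (htop : ∀ a, (P a).coeff (prevSet c a).card = e a)
    (hval : ∀ a b, b ≤ a → c b = c a → (P a).eval (z b) = y b) (a : Fin d) :
    P a = ∑ b ∈ insert a (prevSet c a), C (e b) * newtonPoly c z b := by
  induction' h : (a : ℕ) using Nat.strong_induction_on with k ih generalizing a
  subst h
  set Q : 𝒦[X] := ∑ b ∈ insert a (prevSet c a), C (e b) * newtonPoly c z b with hQ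
  have hQsplit : Q = C (e a) * newtonPoly c z a +
      ∑ b ∈ prevSet c a, C (e b) * newtonPoly c z b := by
    rw [hQ, Finset.sum_insert (self_notMem_prevSet c a)]
  have hinj : Set.InjOn z (prevSet c a : Set (Fin d)) := by
    intro b hb b' hb' hbb'
    by_contra hne
    rw [Finset.mem_coe, mem_prevSet] at hb hb'
    exact hz b b' hne (hb.2.trans hb'.2.symm) hbb'
  apply eq_of_degree_sub_lt_of_eval_finset_eq ((prevSet c a).image z)
  · -- the degree
    rw [Finset.card_image_of_injOn hinj, degree_lt_iff_coeff_zero]
    intro m hm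
    rw [coeff_sub, hQsplit, coeff_add, coeff_C_mul, finsetSum_coeff]
    have hsum : ∑ b ∈ prevSet c a, (C (e b) * newtonPoly c z b).coeff m = 0 := by
      refine Finset.sum_eq_zero fun b hb => ?_
      rw [coeff_C_mul, newtonPoly_coeff_eq_zero c z b
        (lt_of_lt_of_le (card_prevSet_lt c hb) hm), mul_zero]
    rw [hsum, add_zero]
    rcases hm.eq_or_lt with h | h
    · rw [← h, htop, newtonPoly_coeff_card, mul_one, sub_self]
    · rw [newtonPoly_coeff_eq_zero c z a h, mul_zero, sub_zero]
      exact coeff_eq_zero_of_natDegree_lt (lt_of_le_of_lt (hdeg a) h)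
  · -- the values
    intro x hx
    obtain ⟨b, hb, rfl⟩ := Finset.mem_image.mp hx
    have hb' := (mem_prevSet c).mp hb
    rw [hval a b hb'.1.le hb'.2, hQsplit, eval_add, eval_mul, eval_C,
      newtonPoly_eval_eq_zero c z hb, mul_zero, zero_add, eval_finsetSum]
    have h1 : ∑ b' ∈ prevSet c a, (C (e b') * newtonPoly c z b').eval (z b) =
        ∑ b' ∈ insert b (prevSet c b), (C (e b') * newtonPoly c z b').eval (z b) := by
      symm
      apply Finset.sum_subset (insert_prevSet_subset c hb)
      intro x hx hxn
      rw [mem_insert_prevSet] at hxn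
      have hx' := (mem_prevSet c).mp hx
      have hcx : c x = c b := hx'.2.trans hb'.2.symm
      have hlt : b < x := by
        by_contra hcon
        exact hxn ⟨not_lt.mp hcon, hcx⟩
      rw [eval_mul, newtonPoly_eval_eq_zero c z ((mem_prevSet c).mpr ⟨hlt, hcx.symm⟩),
        mul_zero]
    rw [h1, ← eval_finsetSum, ← ih (b : ℕ) hb'.1 b rfl, hval b b le_rfl rfl]

end newton

section matrix

variable {𝒦 : Type} [Field 𝒦] (V : ValuationSubring 𝒦)

/-- the determinant of a matrix with integral entries is integral -/
lemma valuation_det_le_one {d : ℕ} (M : Matrix (Fin d) (Fin d) 𝒦)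
    (hM : ∀ a b, V.valuation (M a b) ≤ 1) : V.valuation M.det ≤ 1 := by
  rw [ValuationSubring.valuation_le_one_iff]
  let M' : Matrix (Fin d) (Fin d) V := fun a b =>
    ⟨M a b, (ValuationSubring.valuation_le_one_iff V _).mp (hM a b)⟩
  have h1 : M = (V.subtype).mapMatrix M' := by
    ext a b
    rfl
  rw [h1, ← RingHom.map_det]
  exact (M'.det).2

end matrix

/-- **NEWTON** (row 863). -/
theorem newtonMinor : NewtonMinorStatement := by
  intro 𝒦 _ V Γ d n c E E' lam z hz hint hunit hinterp
  classical
  -- the interpolation data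
  choose r hr1 hr2 using hinterp
  have hrk : ∀ a, clusterRank c a = (prevSet c a).card := clusterRank_eq_card c
  -- the matrix `L`
  let L : Matrix (Fin d) (Fin d) 𝒦 := fun a b =>
    if b ≤ a ∧ c b = c a then (newtonPoly c z b).eval (z a) else 0
  -- Newton's formula, entrywise
  have hentry : ∀ a j, lam a * E a j = ∑ b, L a b * E' b j := by
    intro a j
    let P : Fin d → 𝒦[X] := fun a =>
      ∑ i ∈ Finset.range ((prevSet c a).card + 1), C (r a j i) * X ^ i
    have hdeg : ∀ a, (P a).natDegree ≤ (prevSet c a).card := by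
      intro a
      refine natDegree_sum_le_of_forall_le _ _ fun i hi => ?_
      refine (natDegree_C_mul_X_pow_le _ _).trans ?_
      exact Nat.lt_succ_iff.mp (Finset.mem_range.mp hi)
    have htop : ∀ a, (P a).coeff (prevSet c a).card = E' a j := by
      intro a
      change (∑ i ∈ Finset.range ((prevSet c a).card + 1), C (r a j i) * X ^ i).coeff
        (prevSet c a).card = E' a j
      rw [finsetSum_coeff]
      simp only [coeff_C_mul_X_pow]
      rw [Finset.sum_ite_eq (Finset.range ((prevSet c a).card + 1)) (prevSet c a).card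
        (fun i => r a j i)]
      rw [if_pos (Finset.mem_range.mpr (Nat.lt_succ_self _)), ← hrk, hr1]
    have hval : ∀ a b, b ≤ a → c b = c a → (P a).eval (z b) = lam b * E b j := by
      intro a b hba hcb
      change (∑ i ∈ Finset.range ((prevSet c a).card + 1), C (r a j i) * X ^ i).eval (z b) = _
      rw [eval_finsetSum, hr2 a j b hba hcb, hrk]
      refine Finset.sum_congr rfl fun i _ => ?_
      rw [eval_mul, eval_C, eval_pow, eval_X]
    have hN := newton_expansion c z hz P (fun b => E' b j) (fun b => lam b * E b j)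
      hdeg htop hval a
    have h1 := hval a a le_rfl rfl
    rw [hN, eval_finsetSum] at h1
    rw [← h1]
    have h2 : ∀ b, L a b * E' b j =
        if b ∈ insert a (prevSet c a) then (C (E' b j) * newtonPoly c z b).eval (z a)
        else 0 := by
      intro b
      by_cases hb : b ≤ a ∧ c b = c a
      · rw [if_pos ((mem_insert_prevSet c).mpr hb)]
        change (if b ≤ a ∧ c b = c a then (newtonPoly c z b).eval (z a) else 0) * E' b j = _
        rw [if_pos hb, eval_mul, eval_C, mul_comm]
      · rw [if_neg (fun h => hb ((mem_insert_prevSet c).mp h))]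
        change (if b ≤ a ∧ c b = c a then (newtonPoly c z b).eval (z a) else 0) * E' b j = _
        rw [if_neg hb, zero_mul]
    simp_rw [h2]
    rw [Finset.sum_ite_mem, Finset.univ_inter]
  have hmat : Matrix.diagonal lam * E = L * E' := by
    ext a j
    rw [Matrix.diagonal_mul, Matrix.mul_apply]
    exact hentry a j
  -- `L` is lower triangular
  have hL : L.BlockTriangular OrderDual.toDual := by
    intro a b hab
    have hab' : a < b := hab
    change (if b ≤ a ∧ c b = c a then (newtonPoly c z b).eval (z a) else 0) = 0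
    rw [if_neg (fun h => absurd h.1 (not_le.mpr hab'))]
  have hLdiag : ∀ a, L a a = ∏ b ∈ prevSet c a, (z a - z b) := by
    intro a
    change (if a ≤ a ∧ c a = c a then (newtonPoly c z a).eval (z a) else 0) = _
    rw [if_pos ⟨le_rfl, rfl⟩, newtonPoly_eval]
  have hdetL : L.det = ∏ a, ∏ b ∈ prevSet c a, (z a - z b) := by
    rw [Matrix.det_of_isLowerTriangular L hL]
    exact Finset.prod_congr rfl fun a _ => hLdiag a
  -- the minors
  have hminor : ∀ J : {s : Finset (Fin n) // s.card = d},
      (∏ a, lam a) * minorVec E J = L.det * minorVec E' J := by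
    intro J
    unfold minorVec
    rw [← Matrix.det_diagonal, ← Matrix.det_mul, ← Matrix.det_mul]
    congr 1
    have e1 : Matrix.diagonal lam * E.submatrix id (J.1.orderEmbOfFin J.2) =
        (Matrix.diagonal lam * E).submatrix id (J.1.orderEmbOfFin J.2) := by
      ext a j
      simp [Matrix.mul_apply]
    have e2 : L * E'.submatrix id (J.1.orderEmbOfFin J.2) =
        (L * E').submatrix id (J.1.orderEmbOfFin J.2) := by
      ext a j
      simp [Matrix.mul_apply]
    rw [e1, e2, hmat]
  -- valuations
  have hvdet : V.valuation L.det = ∏ a : Fin d, ∏ b : Fin d,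
      if b < a ∧ c b = c a then V.valuation (z a - z b) else 1 := by
    rw [hdetL, map_prod]
    refine Finset.prod_congr rfl fun a _ => ?_
    rw [map_prod]
    unfold prevSet
    rw [Finset.prod_filter]
  have hvminor : ∀ J : {s : Finset (Fin n) // s.card = d},
      V.valuation (minorVec E J) * ∏ a, V.valuation (lam a) =
        V.valuation L.det * V.valuation (minorVec E' J) := by
    intro J
    rw [← map_prod, ← map_mul, ← map_mul, mul_comm, hminor J]
  have hint' : ∀ J : {s : Finset (Fin n) // s.card = d},
      V.valuation (minorVec E' J) ≤ 1 := fun J =>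
    valuation_det_le_one V _ fun a b => hint _ _
  obtain ⟨J₁, hJ₁⟩ := hunit
  have hne : (Finset.univ : Finset {s : Finset (Fin n) // s.card = d}).Nonempty :=
    ⟨J₁, Finset.mem_univ _⟩
  obtain ⟨J₀, -, hJ₀⟩ := Finset.exists_mem_eq_sup Finset.univ hne
    (fun J => V.valuation (minorVec E J))
  have hgoal : (Finset.univ.sup fun J => V.valuation (minorVec E J)) *
      ∏ a, V.valuation (lam a) = V.valuation L.det := by
    apply le_antisymm
    · rw [hJ₀, hvminor J₀]
      calc V.valuation L.det * V.valuation (minorVec E' J₀)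
          ≤ V.valuation L.det * 1 := mul_le_mul_right (hint' J₀) _
        _ = V.valuation L.det := mul_one _
    · have h1 : V.valuation (minorVec E J₁) ≤
          Finset.univ.sup fun J => V.valuation (minorVec E J) :=
        Finset.le_sup (f := fun J => V.valuation (minorVec E J)) (Finset.mem_univ J₁)
      calc V.valuation L.det = V.valuation L.det * V.valuation (minorVec E' J₁) := by
            rw [hJ₁, mul_one]
        _ = V.valuation (minorVec E J₁) * ∏ a, V.valuation (lam a) := (hvminor J₁).symm
        _ ≤ _ := mul_le_mul_left h1 _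
  rw [hgoal, hvdet]

end Fermat.Agent.H90.MW
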